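import Fermat.Agent.R59.CotBound.Obstruction
import Fermat.Agent.ECFormal.FlatCriterion
import Fermat.Prelude.Def_GaloisRep_Flat

/-!
# Ordinary representations with unit Kummer elements are flat

An ordinary representation over a finite ring, whose extension class on inertia has a unit Kummer
element for every character, has a finite flat model: the functions are the indicators of the
quotient coordinate and `lam x * E lam y`, `E` a unit Kummer element.
-/

set_option autoImplicit false
set_option linter.unusedSectionVars false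

noncomputable section

open Multiplicative

namespace Fermat.Agent.R59.CotBound

open FlatTangent

variable {p : ℕ} [Fact p.Prime] {A : Type} [CommRing A] [IsLocalRing A] [Finite A]

theorem isFlatAt_of_units (ρ : GaloisRepAdic A) (b : Module.Basis (Fin 2) A ρ.V) {N : ℕ}
    {d c : Gal → A} (h : IsTwCocycle p N d c)
    (hb0 : ∀ σ ∈ inert p, ρ.ρ σ (b 0) = d σ • b 0)
    (hb1 : ∀ σ ∈ inert p, ρ.ρ σ (b 1) = b 1 + c σ • b 0)
    (hunit : ∀ lam : Chr A, ∃ y, IsKummer p c lam y ∧ VEQ p 0 y) : ρ.IsFlatAt p := by
  classical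
  have : Finite (IsLocalRing.ResidueField A) :=
    Finite.of_surjective _ IsLocalRing.residue_surjective
  refine ⟨this, fun I hI => ?_⟩
  let actV : DistribMulAction Gal ρ.V :=
    { smul := fun σ v => ρ.ρ σ v
      one_smul := fun v => by show ρ.ρ 1 v = v; rw [map_one]; rfl
      mul_smul := fun σ τ v => by show ρ.ρ (σ * τ) v = ρ.ρ σ (ρ.ρ τ v); rw [map_mul]; rfl
      smul_zero := fun σ => map_zero (ρ.ρ σ)
      smul_add := fun σ => map_add (ρ.ρ σ) }
  have hsmul : ∀ (σ : Gal) (v : ρ.V), σ • v = ρ.ρ σ v := fun _ _ => rfl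
  have : Finite ρ.V := Finite.of_injective b.equivFun b.equivFun.injective
  -- finite level
  obtain ⟨n, hn⟩ := IsArtinianRing.isNilpotent_jacobson_bot (R := A)
  have hfin : ∃ L : IntermediateField ℚ Qb, FiniteDimensional ℚ L ∧
      ∀ σ ∈ L.fixingSubgroup, ∀ m : ρ.V, σ • m = m := by
    obtain ⟨L, hL, hfix⟩ := ρ.isAdicContinuous n
    refine ⟨L, hL, fun σ hσ v => ?_⟩
    have h1 := hfix σ (fun x hx => (IntermediateField.mem_fixingSubgroup_iff _ _).mp hσ x hx) v
    rw [← IsLocalRing.jacobson_eq_maximalIdeal ⊥ bot_ne_top, hn, Ideal.zero_eq_bot,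
      Submodule.bot_smul, Submodule.mem_bot, sub_eq_zero] at h1
    rw [hsmul]
    exact h1
  choose E hE hEv using fun lam : Chr A => hunit lam
  let lamY : Chr A → A → Chr A := fun lam y => lam.comp (AddMonoidHom.mulLeft y).toMultiplicative
  let T : Chr A → ρ.V → Qb := fun lam m => chv lam (b.repr m 0) * E (lamY lam (b.repr m 1))
  let ind : A → ρ.V → Qb := fun y m => if b.repr m 1 = y then 1 else 0
  let Φ : Set (ρ.V → Qb) := Set.range T ∪ Set.range ind
  have hchv : ∀ (lam : Chr A) (a : A), VEQ p 0 (chv lam a) := fun lam a =>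
    veq_zero_of_pow_eq_one (pow_ne_zero N (Fact.out : p.Prime).ne_zero)
      (chv_pow h.pow_eq_zero lam a)
  have hcoord : ∀ σ ∈ inert p, ∀ m : ρ.V,
      b.repr (σ • m) 0 = d σ * b.repr m 0 + b.repr m 1 * c σ ∧
        b.repr (σ • m) 1 = b.repr m 1 := by
    intro σ hσ m
    have hv : ρ.ρ σ m = (d σ * b.repr m 0 + b.repr m 1 * c σ) • b 0 + b.repr m 1 • b 1 := by
      conv_lhs => rw [← b.sum_repr m]
      rw [Fin.sum_univ_two, map_add, map_smul, map_smul, hb0 σ hσ, hb1 σ hσ, smul_smul, smul_add,
        smul_smul, add_smul, mul_comm (d σ)]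
      abel
    rw [hsmul, hv, map_add, map_smul, map_smul, b.repr_self, b.repr_self]
    exact ⟨by simp, by simp⟩
  have hflat : FFG.HasFlatModelAt p fun (σ : Gal) (m : ρ.V) => σ • m := by
    refine ECFormal.hasFlatModelAt_of_generators hfin (plc_liesOverPrime p) Fact.out Φ ?_ ?_ ?_ ?_
    · rintro _ (⟨lam, rfl⟩ | ⟨y, rfl⟩) m
      · exact mem_plc_iff.mpr (by simpa using ((hchv lam _).mul (hEv _)).vge)
      · simp only [ind]
        split_ifs <;> simp
    · rintro _ (⟨lam, rfl⟩ | ⟨y, rfl⟩) σ hσ m
      · simp only [T, (hcoord σ hσ m).1, (hcoord σ hσ m).2, map_mul, (hE _).2 σ hσ, h.cyc]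
        rw [chv_add]
        show _ = _ * (chv lam (b.repr m 1 * c σ) * _)
        ring
      · simp only [ind, (hcoord σ hσ m).2]
        split_ifs <;> simp
    · intro m m' hmm
      have h1 : b.repr m' 1 = b.repr m 1 := by
        have := hmm (ind (b.repr m 1)) (Or.inr ⟨_, rfl⟩)
        simp only [ind, if_true] at this
        by_contra hne
        rw [if_neg hne] at this
        exact one_ne_zero this
      have h0 : b.repr m 0 = b.repr m' 0 := by
        refine ofAdd.injective ((CommGroup.forall_apply_eq_apply_iff (M := Qb) _).mp fun lam => ?_)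
        have := hmm (T lam) (Or.inl ⟨lam, rfl⟩)
        simp only [T, h1] at this
        exact Units.ext (mul_right_cancel₀ (hEv _).ne_zero this)
      refine b.ext_elem fun i => ?_
      fin_cases i
      · exact h0
      · exact h1.symm
    · have hprod : ∀ F : A → A → Qb, (∀ a a', VGE p 0 (F a a')) →
          (fun z : ρ.V × ρ.V => F (b.repr z.1 1) (b.repr z.2 1)) ∈
            ECFormal.genAlg (plc p) (ECFormal.prodGen Φ) := by
        intro F hF
        have := Fintype.ofFinite A
        have key : (fun z : ρ.V × ρ.V => F (b.repr z.1 1) (b.repr z.2 1)) =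
            ∑ a : A, ∑ a' : A, (⟨F a a', mem_plc_iff.mpr (hF a a')⟩ : plc p) •
              ((ind a ∘ Prod.fst) * (ind a' ∘ Prod.snd) : ρ.V × ρ.V → Qb) := by
          funext z
          simp only [Finset.sum_apply, Pi.mul_apply, Function.comp_apply, ind,
            Algebra.smul_def]
          rw [Finset.sum_eq_single (b.repr z.1 1) (fun a _ ha => by simp [Ne.symm ha]) (by simp),
            Finset.sum_eq_single (b.repr z.2 1) (fun a _ ha => by simp [Ne.symm ha]) (by simp)]
          simp
        rw [key]
        refine Subalgebra.sum_mem _ fun a _ => Subalgebra.sum_mem _ fun a' _ =>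
          Subalgebra.smul_mem _ (mul_mem ?_ ?_) _
        · exact ECFormal.subset_genAlg _ _ (Or.inl ⟨ind a, Or.inr ⟨a, rfl⟩, rfl⟩)
        · exact ECFormal.subset_genAlg _ _ (Or.inr ⟨ind a', Or.inr ⟨a', rfl⟩, rfl⟩)
      rintro _ (⟨lam, rfl⟩ | ⟨y, rfl⟩)
      · let F : A → A → Qb := fun a a' =>
          E (lamY lam (a + a')) / (E (lamY lam a) * E (lamY lam a'))
        have hF : ∀ a a', VEQ p 0 (F a a') := fun a a' => by
          simpa using (hEv _).div ((hEv _).mul (hEv _))
        have e : (fun z : ρ.V × ρ.V => T lam (z.1 + z.2)) =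
            (T lam ∘ Prod.fst) * (T lam ∘ Prod.snd) *
              fun z => F (b.repr z.1 1) (b.repr z.2 1) := by
          funext z
          simp only [T, F, Pi.mul_apply, Function.comp_apply, map_add, Finsupp.add_apply, chv_add]
          have := (hEv (lamY lam (b.repr z.1 1))).ne_zero
          have := (hEv (lamY lam (b.repr z.2 1))).ne_zero
          field_simp
        rw [e]
        exact mul_mem (mul_mem (ECFormal.subset_genAlg _ _ (Or.inl ⟨T lam, Or.inl ⟨lam, rfl⟩, rfl⟩))
          (ECFormal.subset_genAlg _ _ (Or.inr ⟨T lam, Or.inl ⟨lam, rfl⟩, rfl⟩)))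
          (hprod F fun a a' => (hF a a').vge)
      · have e : (fun z : ρ.V × ρ.V => ind y (z.1 + z.2)) =
            fun z => (if b.repr z.1 1 + b.repr z.2 1 = y then 1 else 0 : Qb) := by
          funext z
          simp only [ind, map_add, Finsupp.add_apply]
        rw [e]
        exact hprod (fun a a' => if a + a' = y then 1 else 0) fun a a' => by
          split_ifs
          · exact veq_one.vge
          · exact vge_zero _
  exact hflat.of_surjective (I • (⊤ : Submodule A ρ.V)).mkQ.toAddMonoidHom
    (Submodule.mkQ_surjective _) fun σ v => rfl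

end Fermat.Agent.R59.CotBound
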