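import Fermat.Agent.R59.Setup
import Fermat.Agent.R59.CotGrowth.Main
import Fermat.Agent.R59.CotBound.FlatOfUnits
import Mathlib.RingTheory.LocalRing.Quotient

/-!
# Flat quotients of an ordinary deformation modulo `℘ ^ 2`

For an ordinary representation over `R` whose specialisation under `π : R → O` has unit root `α`
with `α ^ 2 ≠ 1`, every `R / (℘ ^ 2 + 𝔪 ^ (n + 1))` has an ideal of length at most `ord (α ^ 2 - 1)`
with flat quotient.
-/

set_option autoImplicit false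
set_option linter.unusedSectionVars false

noncomputable section

open IsLocalRing Multiplicative

namespace Fermat.Agent.R59.CotBound

open FlatTangent Deform

variable {p : ℕ} [Fact p.Prime] {R : Type} [CommRing R] [IsLocalRing R] {ρ : GaloisRepAdic R}
  {b : Module.Basis (Fin 2) R ρ.V}

/-- `b` is adapted to an ordinary line at the chosen place. -/
structure IsOrdBasis (p : ℕ) [Fact p.Prime] (ρ : GaloisRepAdic R)
    (b : Module.Basis (Fin 2) R ρ.V) : Prop where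
  lower : ∀ σ ∈ dec p, matOf ρ b σ 1 0 = 0
  inert_quot : ∀ σ ∈ inert p, matOf ρ b σ 1 1 = 1

theorem ρ_apply_basis (σ : Gal) (j : Fin 2) :
    ρ.ρ σ (b j) = matOf ρ b σ 0 j • b 0 + matOf ρ b σ 1 j • b 1 := by
  rw [← b.sum_repr (ρ.ρ σ (b j)), Fin.sum_univ_two]
  simp only [matOf_apply, LinearMap.toMatrix_apply]

theorem exists_ordBasis (h : ρ.IsOrdinaryAt p) :
    ∃ b : Module.Basis (Fin 2) R ρ.V, IsOrdBasis p ρ b := by
  obtain ⟨L, ⟨b, hL⟩, hD, hI⟩ := h (plc p) (plc_liesOverPrime p)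
  have hcoord : ∀ v ∈ L, b.repr v 1 = 0 := by
    intro v hv
    rw [hL, Submodule.mem_span_singleton] at hv
    obtain ⟨c, rfl⟩ := hv
    simp
  refine ⟨b, fun σ hσ => ?_, fun σ hσ => ?_⟩
  · rw [matOf_apply, LinearMap.toMatrix_apply]
    exact hcoord _ (hD σ hσ _ (hL ▸ Submodule.mem_span_singleton_self _))
  · have h1 := hcoord _ (hI σ hσ (b 1))
    rw [map_sub, Finsupp.sub_apply, b.repr_self, Finsupp.single_eq_same, sub_eq_zero] at h1
    rw [matOf_apply, LinearMap.toMatrix_apply]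
    exact h1

namespace IsOrdBasis

variable (hb : IsOrdBasis p ρ b)
include hb

theorem det_eq {σ : Gal} (hσ : σ ∈ dec p) :
    (matOf ρ b σ).det = matOf ρ b σ 0 0 * matOf ρ b σ 1 1 := by
  rw [Matrix.det_fin_two, hb.lower σ hσ, mul_zero, sub_zero]

theorem diag_eq_det {σ : Gal} (hσ : σ ∈ inert p) :
    matOf ρ b σ 0 0 = (matOf ρ b σ).det := by
  rw [hb.det_eq (inert_le_dec hσ), hb.inert_quot σ hσ, mul_one]

theorem isUnit_quot {σ : Gal} (hσ : σ ∈ dec p) : IsUnit (matOf ρ b σ 1 1) := by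
  have h : IsUnit (matOf ρ b σ).det := by
    refine IsUnit.of_mul_eq_one (matOf ρ b σ⁻¹).det ?_
    rw [← Matrix.det_mul, ← map_mul, mul_inv_cancel, map_one, Matrix.det_one]
  rw [hb.det_eq hσ] at h
  exact isUnit_of_mul_isUnit_right h

/-- The data on a quotient. -/
theorem isTwCocycle (hdet : ρ.DetIsCyclotomic p) (J : Ideal R) {m : ℕ}
    (hJ : maximalIdeal R ^ m ≤ J) :
    IsTwCocycle p m (fun σ => Ideal.Quotient.mk J (matOf ρ b σ).det)
      (fun σ => Ideal.Quotient.mk J (matOf ρ b σ 0 1)) := by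
  have hp := (Fact.out : p.Prime)
  have hpm : (p : R ⧸ J) ^ m = 0 := by
    rw [← map_natCast (Ideal.Quotient.mk J), ← map_pow, Ideal.Quotient.eq_zero_iff_mem]
    exact hJ (Ideal.pow_mem_pow hdet.1 m)
  refine ⟨hpm, fun σ lam a => ?_, fun σ hσ τ hτ => ?_, ?_⟩
  · have : NeZero (p ^ m) := ⟨pow_ne_zero m hp.ne_zero⟩
    obtain ⟨ζ, hζ⟩ := HasEnoughRootsOfUnity.exists_primitiveRoot Qb (p ^ m)
    obtain ⟨k, -, hk⟩ := hζ.eq_pow_of_pow_eq_one (ξ := σ ζ)
      (by rw [← map_pow, hζ.pow_eq_one, map_one])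
    have hall : ∀ μ : Qb, μ ^ p ^ m = 1 → σ μ = μ ^ k := by
      intro μ hμ
      obtain ⟨i, -, rfl⟩ := hζ.eq_pow_of_pow_eq_one hμ
      rw [map_pow, ← hk, ← pow_mul, ← pow_mul, mul_comm]
    have h1 : Ideal.Quotient.mk J (matOf ρ b σ).det = (k : R ⧸ J) := by
      rw [← map_natCast (Ideal.Quotient.mk J), Ideal.Quotient.eq]
      have h2 := hdet.2 m σ k hall
      rw [← LinearMap.det_toMatrix b] at h2
      refine (Ideal.span_singleton_le_iff_mem _).mpr ?_ h2
      rw [Nat.cast_pow]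
      exact hJ (Ideal.pow_mem_pow hdet.1 m)
    rw [hall _ (chv_pow hpm lam a), h1, ← nsmul_eq_mul, chv, chv, ← Units.val_pow_eq_pow_val,
      ← map_pow, ← ofAdd_nsmul]
  · beta_reduce
    rw [map_mul (matOf ρ b), Matrix.mul_apply, Fin.sum_univ_two, hb.inert_quot τ hτ, mul_one,
      hb.diag_eq_det hσ, map_add, map_mul (Ideal.Quotient.mk J)]
  · obtain ⟨F, hF, hfix⟩ := isContRep_matOf ρ b m
    refine ⟨F, hF, fun σ _ hσ => Ideal.Quotient.eq_zero_iff_mem.mpr (hJ ?_)⟩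
    simpa using hfix σ (fun x hx => (IntermediateField.mem_fixingSubgroup_iff _ _).mp hσ x hx) 0 1

/-- A quotient with unit Kummer elements is flat. -/
theorem isFlatAt_quotient [IsNoetherianRing R] [Finite (ResidueField R)]
    (hdet : ρ.DetIsCyclotomic p) (J : Ideal R) [IsLocalRing (R ⧸ J)] {m : ℕ}
    (hJ : maximalIdeal R ^ m ≤ J) (hmk : IsLocalHom (Ideal.Quotient.mk J))
    (hunit : ∀ lam : Chr (R ⧸ J), ∃ y, IsKummer p
      (fun σ => Ideal.Quotient.mk J (matOf ρ b σ 0 1)) lam y ∧ VEQ p 0 y) :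
    (ρ.baseChangeAlong (Ideal.Quotient.mk J) hmk).IsFlatAt p := by
  have : Finite (R ⧸ J) := finite_quotient_iff.mpr ⟨m, hJ⟩
  have hmat : ∀ σ i j, matOf (ρ.baseChangeAlong (Ideal.Quotient.mk J) hmk)
      (DefCond.bcBasis _ hmk b) σ i j = Ideal.Quotient.mk J (matOf ρ b σ i j) := fun σ i j => by
    rw [DefCond.matOf_bcBasis, mapRep_apply]
  refine isFlatAt_of_units _ (DefCond.bcBasis _ hmk b) (hb.isTwCocycle hdet J hJ) ?_ ?_ hunit
  · intro σ hσ
    rw [ρ_apply_basis, hmat, hmat, hb.lower σ (inert_le_dec hσ), hb.diag_eq_det hσ,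
      (Ideal.Quotient.mk J).map_zero, zero_smul, add_zero]
  · intro σ hσ
    rw [ρ_apply_basis, hmat, hmat, hb.inert_quot σ hσ, (Ideal.Quotient.mk J).map_one, one_smul, add_comm]

/-- Frobenius kills the obstruction up to `U ^ 2 - 1`. -/
theorem sq_sub_one_mul_eq_zero (hdet : ρ.DetIsCyclotomic p) (J : Ideal R) [Finite (R ⧸ J)] {m : ℕ}
    (hJ : maximalIdeal R ^ m ≤ J) {φ : Gal} (hφ : φ ∈ dec p) :
    ∃ w : R, IsObstruction p m (fun σ => Ideal.Quotient.mk J (matOf ρ b σ 0 1))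
        (Ideal.Quotient.mk J w) ∧
      (matOf ρ b φ 1 1 ^ 2 - 1) * w ∈ J := by
  obtain ⟨w', hw, hfrob⟩ := (hb.isTwCocycle hdet J hJ).exists_obstruction
  obtain ⟨w, rfl⟩ := Ideal.Quotient.mk_surjective w'
  refine ⟨w, hw, ?_⟩
  obtain ⟨U, hU⟩ := hb.isUnit_quot hφ
  have h := hfrob φ hφ (Ideal.Quotient.mk J (↑U⁻¹ ^ 2))
    (Ideal.Quotient.mk J (matOf ρ b φ 0 1 * ↑U⁻¹)) ?_ fun σ hσ => ⟨?_, ?_⟩
  · rw [← map_mul, Ideal.Quotient.eq] at h
    rw [← hU]
    have : ((U : R) ^ 2 - 1) * w = -((U : R) ^ 2 * ((↑U⁻¹ : R) ^ 2 * w - w)) := by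
      linear_combination w * ((U : R) * ↑U⁻¹ + 1) * U.mul_inv
    rw [this]
    exact neg_mem (Ideal.mul_mem_left _ _ h)
  · rw [← map_mul, ← Matrix.det_mul, ← map_mul (matOf ρ b), inv_mul_cancel, map_one,
      Matrix.det_one, map_one]
  · rw [map_mul (matOf ρ b), map_mul (matOf ρ b), Matrix.det_mul, Matrix.det_mul, mul_comm,
      ← mul_assoc, ← Matrix.det_mul, ← map_mul (matOf ρ b), inv_mul_cancel, map_one, Matrix.det_one,
      one_mul]
  · have hσ' := Galois.inertia_normal_in_decomposition hσ hφ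
    have e : (matOf ρ b φ * matOf ρ b σ) 0 1 =
        (matOf ρ b (φ * σ * φ⁻¹) * matOf ρ b φ) 0 1 := by
      rw [← map_mul, ← map_mul, inv_mul_cancel_right]
    simp only [Matrix.mul_apply, Fin.sum_univ_two, hb.inert_quot σ hσ, ← hU] at e
    rw [hb.diag_eq_det hσ'] at e
    generalize matOf ρ b (φ * σ * φ⁻¹) 0 1 = c' at e ⊢
    rw [map_mul (matOf ρ b), map_mul (matOf ρ b), Matrix.det_mul, Matrix.det_mul] at e
    have hd1 : (matOf ρ b φ).det * (matOf ρ b φ⁻¹).det = 1 := by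
      rw [← Matrix.det_mul, ← map_mul, mul_inv_cancel, map_one, Matrix.det_one]
    have hdφ : (matOf ρ b φ).det = matOf ρ b φ 0 0 * (U : R) := by rw [hb.det_eq hφ, hU]
    rw [← map_mul, ← map_mul, ← map_one (Ideal.Quotient.mk J), ← map_sub, ← map_mul, ← map_add]
    congr 1
    have hUi : (U : R) * ↑U⁻¹ = 1 := U.mul_inv
    generalize (matOf ρ b φ).det = dφ at *
    generalize (matOf ρ b φ⁻¹).det = dφi at *
    generalize (matOf ρ b σ).det = dσ at *
    subst hdφ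
    linear_combination -(↑U⁻¹ : R) * e + (-dσ * matOf ρ b φ 0 1 * ↑U⁻¹) * hd1
      + (-(matOf ρ b σ 0 1 * matOf ρ b φ 0 0 * ↑U⁻¹) - c') * hUi

end IsOrdBasis

section Specialisation

variable {O : Type} [CommRing O] [IsDomain O] [IsLocalRing O]

/-- Inertia moves the determinant. -/
theorem exists_det_ne_one (hp2 : p ≠ 2) (ρ' : GaloisRepAdic O) (hdet : ρ'.DetIsCyclotomic p) :
    ∃ σ ∈ inert p, LinearMap.det (ρ'.ρ σ) ≠ 1 := by
  have hp := (Fact.out : p.Prime)
  have h2 : (2 : ZMod p) ≠ 0 := by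
    rw [← Nat.cast_ofNat, Ne, ZMod.natCast_eq_zero_iff]
    exact fun h => hp2 ((Nat.prime_dvd_prime_iff_eq hp Nat.prime_two).mp h)
  obtain ⟨σ, hσ, hc⟩ := exists_cyc_eq (p := p) h2
  refine ⟨σ, hσ, fun h1 => ?_⟩
  have h := hdet.2 1 σ (cyc p σ).val fun μ hμ => apply_eq_pow_cyc σ (by rwa [pow_one] at hμ)
  have hv : (cyc p σ).val = 2 := by
    rw [hc]
    exact ZMod.val_natCast_of_lt (n := p) (a := 2)
      (lt_of_le_of_ne hp.two_le (Ne.symm hp2))
  rw [h1, hv, pow_one] at h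
  have h3 : (1 : O) - 2 ∈ maximalIdeal O :=
    (Ideal.span_singleton_le_iff_mem _).mpr hdet.1 (by simpa using h)
  exact (maximalIdeal.isMaximal O).ne_top ((Ideal.eq_top_iff_one _).mpr
    (by simp [show (1 : O) - 2 = -1 by ring] at h3))

/-- The quotient character at Frobenius specialises to the unit root. -/
theorem quot_frob_eq {π : R →+* O} (hπ : IsLocalHom π) (hp2 : p ≠ 2) (hb : IsOrdBasis p ρ b)
    {ρ' : GaloisRepAdic O} (he : (ρ.baseChangeAlong π hπ).IsEquiv ρ')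
    (hdet : ρ'.DetIsCyclotomic p) {α : O} (hα : HasUnitRootFrob ρ' p α) {φ : Gal}
    (hφ : (plc p).IsFrobeniusAt φ p) : π (matOf ρ b φ 1 1) = α := by
  obtain ⟨e⟩ := he
  set b' := (DefCond.bcBasis π hπ b).map e.toLinearEquiv with hb'
  have hmat : ∀ σ i j, matOf ρ' b' σ i j = π (matOf ρ b σ i j) := fun σ i j => by
    rw [hb', DefCond.matOf_map_equiv, DefCond.matOf_bcBasis, mapRep_apply]
  obtain ⟨L, ⟨bL, hL⟩, -, hI, hF⟩ := hα (plc p) (plc_liesOverPrime p)
  -- in the coordinates of `b'`, the line is the first axis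
  have hy : b'.repr (bL 0) 1 = 0 := by
    by_contra hy
    obtain ⟨σ, hσ, hne⟩ := exists_det_ne_one hp2 ρ' hdet
    have hzero : ∀ v, ρ'.ρ σ v - v = 0 := by
      intro v
      obtain ⟨t, ht⟩ := Submodule.mem_span_singleton.mp (hL ▸ hI σ hσ v)
      have h1 : b'.repr (ρ'.ρ σ v - v) 1 = 0 := by
        conv_lhs => rw [← b'.sum_repr v, Fin.sum_univ_two]
        rw [map_add, map_smul, map_smul, ρ_apply_basis, ρ_apply_basis, hmat σ 1 0, hmat σ 1 1,
          hb.lower σ (inert_le_dec hσ), hb.inert_quot σ hσ, π.map_zero, π.map_one]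
        simp
      rw [← ht, map_smul, Finsupp.smul_apply, smul_eq_mul, mul_eq_zero] at h1
      rw [← ht, h1.resolve_right hy, zero_smul]
    exact hne (by
      rw [show ρ'.ρ σ = 1 from LinearMap.ext fun v => sub_eq_zero.mp (hzero v)]
      exact map_one _)
  have hLle : ∀ v ∈ L, b'.repr v 1 = 0 := fun v hv => by
    obtain ⟨t, rfl⟩ := Submodule.mem_span_singleton.mp (hL ▸ hv)
    rw [map_smul, Finsupp.smul_apply, hy, smul_zero]
  have h1 := hLle _ (hF φ hφ (b' 1))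
  rw [map_sub, map_smul, b'.repr_self, Finsupp.sub_apply, Finsupp.smul_apply,
    Finsupp.single_eq_same, smul_eq_mul, mul_one, sub_eq_zero] at h1
  rw [← hmat, matOf_apply, LinearMap.toMatrix_apply, h1]

end Specialisation

section Obstruction

variable {O : Type} [CommRing O] [IsDomain O] [IsDiscreteValuationRing O] [IsNoetherianRing R]
  [Algebra O R] [Finite (ResidueField R)]

theorem exists_shift {c : O} (hc : c ≠ 0) :
    ∃ e : ℕ, ∀ (n : ℕ) (x : O), c * x ∈ maximalIdeal O ^ (n + e) → x ∈ maximalIdeal O ^ n := by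
  obtain ⟨ϖ, hϖ⟩ := IsDiscreteValuationRing.exists_irreducible O
  obtain ⟨e, he⟩ := IsDiscreteValuationRing.associated_pow_irreducible hc hϖ
  refine ⟨e, fun n x hx => ?_⟩
  rw [hϖ.maximalIdeal_eq, Ideal.span_singleton_pow, Ideal.mem_span_singleton, pow_add,
    mul_comm (ϖ ^ n)] at hx
  rw [hϖ.maximalIdeal_eq, Ideal.span_singleton_pow, Ideal.mem_span_singleton]
  obtain ⟨u, hu⟩ := he
  have hx' : ϖ ^ e * ϖ ^ n ∣ ϖ ^ e * (x * ↑u⁻¹) := by
    rwa [show ϖ ^ e * (x * ↑u⁻¹) = c * x by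
      rw [← hu]; linear_combination (c * x) * u.mul_inv]
  exact (dvd_trans ((mul_dvd_mul_iff_left (pow_ne_zero _ hϖ.ne_zero)).mp hx')
    ⟨↑u, by rw [mul_assoc, Units.inv_mul, mul_one]⟩)

/-- **Flat quotients with small kernel.** -/
theorem exists_flat_ideal (hb : IsOrdBasis p ρ b) (hdet : ρ.DetIsCyclotomic p) (π : R →ₐ[O] O)
    {φ : Gal} (hφ : φ ∈ dec p) (hα : π (matOf ρ b φ 1 1) ^ 2 ≠ 1) (n : ℕ) :
    ∃ J : Ideal R, RingHom.ker π ^ 2 ⊔ maximalIdeal R ^ (n + 1) ≤ J ∧ J ≤ maximalIdeal R ∧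
      (∀ [IsLocalRing (R ⧸ J)] (hmk : IsLocalHom (Ideal.Quotient.mk J)),
        (ρ.baseChangeAlong (Ideal.Quotient.mk J) hmk).IsFlatAt p) ∧
      Module.length O ((J.restrictScalars O).map (Ideal.Quotient.mkₐ O
          (RingHom.ker π ^ 2 ⊔ maximalIdeal R ^ (n + 1))).toLinearMap) ≤
        Ring.ord O (π (matOf ρ b φ 1 1) ^ 2 - 1) := by
  set 𝔭 := RingHom.ker π with h𝔭
  set U := matOf ρ b φ 1 1 with hU
  obtain ⟨e, he⟩ := exists_shift (c := π U ^ 2 - 1) (sub_ne_zero.mpr hα)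
  set J₀ := 𝔭 ^ 2 ⊔ maximalIdeal R ^ (n + 1 + e) with hJ₀
  set J₁ := 𝔭 ^ 2 ⊔ maximalIdeal R ^ (n + 1) with hJ₁
  have hJ01 : J₀ ≤ J₁ := sup_le le_sup_left
    ((Ideal.pow_le_pow_right (Nat.le_add_right _ _)).trans le_sup_right)
  have : Finite (R ⧸ J₀) := finite_quotient_iff.mpr ⟨_, le_sup_right⟩
  obtain ⟨w, hw, hUw⟩ := hb.sq_sub_one_mul_eq_zero hdet J₀ (m := n + 1 + e) le_sup_right hφ
  have hπloc : IsLocalHom (π : R →+* O) := IsLocalHom.of_surjective _ (NumCrit.aug_surjective π)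
  have h𝔪 : ∀ k, ∀ x ∈ 𝔭 ^ 2 ⊔ maximalIdeal R ^ k, π x ∈ maximalIdeal O ^ k := by
    intro k x hx
    obtain ⟨a, ha, c, hc, rfl⟩ := Submodule.mem_sup.mp hx
    rw [map_add, show π a = 0 from Ideal.pow_le_self two_ne_zero ha, zero_add]
    have hle : (maximalIdeal R ^ k).map (π : R →+* O) ≤ maximalIdeal O ^ k := by
      rw [Ideal.map_pow]
      exact Ideal.pow_right_mono (Ideal.map_le_iff_le_comap.mpr fun y hy =>
        Ideal.mem_comap.mpr (map_nonunit (π : R →+* O) y hy)) k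
    exact hle (Ideal.mem_map_of_mem _ hc)
  have hπw : π w ∈ maximalIdeal O ^ (n + 1) := by
    refine he (n + 1) _ ?_
    have h := h𝔪 _ _ hUw
    rwa [map_mul, map_sub, map_pow, map_one] at h
  have hsub : ∀ x : R, x - algebraMap O R (π x) ∈ 𝔭 := fun x =>
    NumCrit.sub_algebraMap_mem_ker π x
  -- `w` lies in `℘` modulo `J₁`
  have hmO : ∀ c ∈ maximalIdeal O, algebraMap O R c ∈ maximalIdeal R := fun c hc hu => by
    have h1 := hu.map π
    rw [π.commutes] at h1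
    exact hc h1
  have hmOpow : algebraMap O R (π w) ∈ maximalIdeal R ^ (n + 1) := by
    have h := Ideal.mem_map_of_mem (algebraMap O R) hπw
    rw [Ideal.map_pow] at h
    exact Ideal.pow_right_mono (Ideal.map_le_iff_le_comap.mpr hmO) _ h
  set J := J₁ ⊔ Ideal.span {w} with hJ
  have hwm : w ∈ maximalIdeal R := fun hu =>
    (maximalIdeal.isMaximal O).ne_top ((Ideal.eq_top_iff_one _).mpr (by
      have h1 := Ideal.pow_le_self (Nat.succ_ne_zero n) hπw
      exact absurd (hu.map π) h1))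
  refine ⟨J, le_sup_left, sup_le (sup_le ?_ (Ideal.pow_le_self (Nat.succ_ne_zero n)))
    ((Ideal.span_singleton_le_iff_mem _).mpr hwm), fun hmk => ?_, ?_⟩
  · exact (Ideal.pow_le_self two_ne_zero).trans (le_maximalIdeal (RingHom.ker_ne_top _))
  · have hle : maximalIdeal R ^ (n + 1 + e) ≤ J :=
      le_trans le_sup_right (hJ01.trans le_sup_left)
    refine hb.isFlatAt_quotient hdet J hle hmk fun lam => ?_
    have hw' := hw.map (Ideal.Quotient.factor (hJ01.trans (le_sup_left : J₁ ≤ J)))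
    refine (hb.isTwCocycle hdet J hle).exists_unit_kummer hw' lam ?_
    rw [Ideal.Quotient.factor_mk, Ideal.Quotient.eq_zero_iff_mem.mpr
      (Ideal.mem_sup_right (Ideal.mem_span_singleton_self w)), chv_zero]
  · set mk := Ideal.Quotient.mk J₁
    have hwI : mk w = mk (w - algebraMap O R (π w)) := by
      rw [map_sub, Ideal.Quotient.eq_zero_iff_mem.mpr (Ideal.mem_sup_right hmOpow), sub_zero]
    have hI2 : ∀ x ∈ 𝔭, mk x * mk w = 0 := fun x hx => by
      rw [hwI, ← map_mul, Ideal.Quotient.eq_zero_iff_mem]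
      exact Ideal.mem_sup_left (sq 𝔭 ▸ Ideal.mul_mem_mul hx (hsub w))
    have hlin : ∀ r : R, mk r * mk w = π r • mk w := fun r => by
      have h := hI2 _ (hsub r)
      rw [map_sub, sub_mul, sub_eq_zero] at h
      rw [h, Algebra.smul_def]
      rfl
    have hrel : (π U ^ 2 - 1) • mk w = 0 := by
      rw [← map_one π, ← map_pow, ← map_sub, ← hlin, ← map_mul]
      exact Ideal.Quotient.eq_zero_iff_mem.mpr (hJ01 hUw)
    refine le_trans ?_ (le_trans (CotGrowth.length_span_le_ord_det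
      (N := R ⧸ J₁) (Matrix.of fun _ _ : Fin 1 => π U ^ 2 - 1) (fun _ : Fin 1 => mk w)
      (fun i => by simpa using hrel)) (le_of_eq (by simp)))
    have hle : (J.restrictScalars O).map (Ideal.Quotient.mkₐ O J₁).toLinearMap ≤
        Submodule.span O (Set.range fun _ : Fin 1 => mk w) := by
      rintro _ ⟨x, hx, rfl⟩
      obtain ⟨a, ha, c, hc, rfl⟩ := Submodule.mem_sup.mp hx
      obtain ⟨r, rfl⟩ := Ideal.mem_span_singleton'.mp hc
      show mk (a + r * w) ∈ _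
      rw [map_add, map_mul, Ideal.Quotient.eq_zero_iff_mem.mpr ha, zero_add, hlin]
      exact Submodule.smul_mem _ _ (Submodule.subset_span ⟨0, rfl⟩)
    exact Module.length_le_of_injective (Submodule.inclusion hle) (Submodule.inclusion_injective hle)

end Obstruction

end Fermat.Agent.R59.CotBound
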