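import Fermat.Agent.TWGal.Augmentation
import Mathlib.RingTheory.AdicCompletion.Functoriality

/-!
# A map to the ring of a smaller deformation problem is surjective
-/

set_option autoImplicit false

noncomputable section

open IsLocalRing

namespace Fermat.Agent.R59.CotBound

variable {𝒪 : Type} [CommRing 𝒪] [IsDomain 𝒪] [IsDiscreteValuationRing 𝒪]
  [IsAdicComplete (maximalIdeal 𝒪) 𝒪] {ρbar : ResidualGaloisRep (ResidueField 𝒪)}
  {𝒟 𝒟' : ∀ ⦃A : Type⦄ [CommRing A] [IsLocalRing A] [Algebra 𝒪 A], GaloisRepAdic A → Prop}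

/-- The map between the rings of `𝒟` and of a stronger condition `𝒟'` is surjective. -/
theorem surjective_of_universal (D : GaloisRep.DeformationRingData 𝒪 ρbar 𝒟)
    (D' : GaloisRep.DeformationRingData 𝒪 ρbar 𝒟') (r : D.R →ₐ[𝒪] D'.R)
    (hr : IsLocalHom (r : D.R →+* D'.R))
    (he : (D.ρ.baseChangeAlong (r : D.R →+* D'.R) hr).IsEquiv D'.ρ)
    (hbc : ∀ ⦃B : Type⦄ [CommRing B] [IsLocalRing B] [Algebra 𝒪 B] (f : D'.R →ₐ[𝒪] B)
      (hf : IsLocalHom (f : D'.R →+* B)), Function.Surjective f →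
        𝒟' (D'.ρ.baseChangeAlong (f : D'.R →+* B) hf)) : Function.Surjective r := by
  set J : Ideal D'.R := (maximalIdeal D.R).map (r : D.R →+* D'.R) with hJ
  have hJle : J ≤ maximalIdeal D'.R :=
    Ideal.map_le_iff_le_comap.mpr fun x hx => Ideal.mem_comap.mpr (map_nonunit (r : D.R →+* D'.R) x hx)
  have hJO : ∀ c ∈ maximalIdeal 𝒪, algebraMap 𝒪 D'.R c ∈ J := fun c hc => by
    rw [← r.commutes c]
    exact Ideal.mem_map_of_mem _ (map_nonunit (algebraMap 𝒪 D.R) c hc)
  have : Nontrivial (D'.R ⧸ J) := Ideal.Quotient.nontrivial_iff.mpr fun h =>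
    (maximalIdeal.isMaximal D'.R).ne_top (top_le_iff.mp (h ▸ hJle))
  have : IsLocalRing (D'.R ⧸ J) :=
    IsLocalRing.of_surjective' (Ideal.Quotient.mk J) Ideal.Quotient.mk_surjective
  have hmk : IsLocalHom ((Ideal.Quotient.mkₐ 𝒪 J : D'.R →ₐ[𝒪] D'.R ⧸ J) : D'.R →+* D'.R ⧸ J) :=
    IsLocalHom.of_surjective _ Ideal.Quotient.mk_surjective
  have : IsLocalHom (Ideal.Quotient.mk J) := hmk
  have : IsLocalHom (algebraMap D'.R (D'.R ⧸ J)) := hmk
  have : Module.Finite D'.R (D'.R ⧸ J) :=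
    Module.Finite.of_surjective (Ideal.Quotient.mkₐ D'.R J).toLinearMap Ideal.Quotient.mk_surjective
  have : IsAdicComplete (maximalIdeal (D'.R ⧸ J)) (D'.R ⧸ J) :=
    IsLocalRing.isAdicComplete_of_module_finite (𝒪 := D'.R)
  have : IsLocalHom (algebraMap 𝒪 (D'.R ⧸ J)) := by
    rw [IsScalarTower.algebraMap_eq 𝒪 D'.R (D'.R ⧸ J)]
    exact RingHom.isLocalHom_comp _ _
  have hsurj : Function.Surjective (residue (D'.R ⧸ J) ∘ algebraMap 𝒪 (D'.R ⧸ J)) := by
    intro y
    obtain ⟨x, rfl⟩ := residue_surjective y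
    obtain ⟨x, rfl⟩ := Ideal.Quotient.mk_surjective x
    obtain ⟨c, hc⟩ := D'.residue_surjective (residue D'.R x)
    refine ⟨c, ?_⟩
    have h := congrArg (ResidueField.map (Ideal.Quotient.mk J)) hc
    simpa [ResidueField.map_residue] using h
  -- a second map to `D'.R ⧸ J`, through the residue field
  choose s hs using D'.residue_surjective
  have hkey : ∀ c c' : 𝒪, residue D'.R (algebraMap 𝒪 D'.R c) = residue D'.R (algebraMap 𝒪 D'.R c') →
      algebraMap 𝒪 (D'.R ⧸ J) c = algebraMap 𝒪 (D'.R ⧸ J) c' := fun c c' h => by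
    rw [← sub_eq_zero, ← map_sub, IsScalarTower.algebraMap_apply 𝒪 D'.R,
      Ideal.Quotient.algebraMap_eq, Ideal.Quotient.eq_zero_iff_mem]
    refine hJO _ fun hu => ?_
    have h1 := (hu.map (algebraMap 𝒪 D'.R)).map (residue D'.R)
    rw [map_sub, map_sub, h, sub_self] at h1
    exact not_isUnit_zero h1
  have hs' : ∀ c, algebraMap 𝒪 (D'.R ⧸ J) (s (residue D'.R (algebraMap 𝒪 D'.R c))) =
      algebraMap 𝒪 (D'.R ⧸ J) c := fun c => hkey _ _ (hs _)
  let g : D'.R →ₐ[𝒪] D'.R ⧸ J :=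
    { toFun := fun x => algebraMap 𝒪 (D'.R ⧸ J) (s (residue D'.R x))
      map_one' := by simpa using hs' 1
      map_zero' := by simpa using hs' 0
      map_add' := fun x y => by
        rw [← map_add]
        exact hkey _ _ ((hs _).trans (by
          rw [map_add, map_add]; exact congrArg₂ (· + ·) (hs (residue D'.R x)).symm
            (hs (residue D'.R y)).symm))
      map_mul' := fun x y => by
        rw [← map_mul]
        exact hkey _ _ ((hs _).trans (by
          rw [map_mul, map_mul]; exact congrArg₂ (· * ·) (hs (residue D'.R x)).symm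
            (hs (residue D'.R y)).symm))
      commutes' := hs' }
  let m : D'.R →ₐ[𝒪] D'.R ⧸ J := Ideal.Quotient.mkₐ 𝒪 J
  have hgr : g.comp r = m.comp r := by
    refine AlgHom.ext fun x => ?_
    obtain ⟨c, hc⟩ := D.residue_surjective (residue D.R x)
    have hd : x - algebraMap 𝒪 D.R c ∈ maximalIdeal D.R := by
      rw [← residue_eq_zero_iff, map_sub, show residue D.R (algebraMap 𝒪 D.R c) = _ from hc,
        sub_self]
    have h1 : m (r (x - algebraMap 𝒪 D.R c)) = 0 :=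
      Ideal.Quotient.eq_zero_iff_mem.mpr (Ideal.mem_map_of_mem _ hd)
    have h2 : g (r (x - algebraMap 𝒪 D.R c)) = 0 := by
      show algebraMap 𝒪 (D'.R ⧸ J) (s (residue D'.R _)) = 0
      rw [(residue_eq_zero_iff _).mpr (show r (x - algebraMap 𝒪 D.R c) ∈ maximalIdeal D'.R from
        map_nonunit (r : D.R →+* D'.R) _ hd)]
      simpa using hs' 0
    rw [map_sub, map_sub, sub_eq_zero, AlgHom.commutes, AlgHom.commutes] at h1 h2
    rw [AlgHom.comp_apply, AlgHom.comp_apply, h1, h2]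
  have hgloc : IsLocalHom (g : D'.R →+* D'.R ⧸ J) := ⟨fun x hx => by
    by_contra hx'
    have : g x = 0 := by
      show algebraMap 𝒪 (D'.R ⧸ J) (s (residue D'.R x)) = 0
      rw [(residue_eq_zero_iff _).mpr hx']
      simpa using hs' 0
    exact not_isUnit_zero (this ▸ hx)⟩
  have hmg : m = g := by
    refine (D'.universal (D'.R ⧸ J) hsurj (D'.ρ.baseChangeAlong (m : D'.R →+* D'.R ⧸ J) hmk)
      (hbc m hmk Ideal.Quotient.mk_surjective)
      (TWGal.residual_baseChangeAlong_isEquiv D'.ρ D'.residual_isEquiv m hmk)).unique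
      ⟨hmk, ⟨GaloisRepAdic.Equiv.refl _⟩⟩ ⟨hgloc, ?_⟩
    obtain ⟨e⟩ := he
    have h1 : IsLocalHom ((g : D'.R →+* D'.R ⧸ J).comp (r : D.R →+* D'.R)) :=
      RingHom.isLocalHom_comp _ _
    have h2 : IsLocalHom ((m : D'.R →+* D'.R ⧸ J).comp (r : D.R →+* D'.R)) :=
      RingHom.isLocalHom_comp _ _
    refine Deform.isEquiv_trans' ⟨e.symm.baseChangeAlong _ hgloc⟩ (Deform.isEquiv_trans'
      (TWGal.baseChangeAlong_comp D.ρ _ hr _ hgloc h1) (Deform.isEquiv_trans' ?_
      (Deform.isEquiv_trans' (Deform.isEquiv_symm' (TWGal.baseChangeAlong_comp D.ρ _ hr _ hmk h2))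
        ⟨e.baseChangeAlong _ hmk⟩)))
    have : (g : D'.R →+* D'.R ⧸ J).comp (r : D.R →+* D'.R) =
        (m : D'.R →+* D'.R ⧸ J).comp (r : D.R →+* D'.R) :=
      RingHom.ext fun x => AlgHom.congr_fun hgr x
    simp only [this]
    exact ⟨GaloisRepAdic.Equiv.refl _⟩
  have hJeq : J = maximalIdeal D'.R := le_antisymm hJle fun x hx => by
    refine Ideal.Quotient.eq_zero_iff_mem.mp ?_
    have h : m x = g x := by rw [hmg]
    refine h.trans ?_
    show algebraMap 𝒪 (D'.R ⧸ J) (s (residue D'.R x)) = 0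
    rw [(residue_eq_zero_iff _).mpr hx]
    simpa using hs' 0
  have : IsHausdorff ((maximalIdeal D.R).map (r : D.R →+* D'.R)) D'.R := by
    rw [← hJ, hJeq]; infer_instance
  refine surjective_of_mk_map_comp_surjective (I := maximalIdeal D.R) (r : D.R →+* D'.R) ?_
  intro y
  obtain ⟨x, rfl⟩ := Ideal.Quotient.mk_surjective y
  obtain ⟨c, hc⟩ := D'.residue_surjective (residue D'.R x)
  refine ⟨algebraMap 𝒪 D.R c, Ideal.Quotient.eq.mpr ?_⟩
  rw [← hJ, hJeq, ← residue_eq_zero_iff, map_sub]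
  show residue D'.R (r (algebraMap 𝒪 D.R c)) - residue D'.R x = 0
  rw [r.commutes, sub_eq_zero]
  exact hc

end Fermat.Agent.R59.CotBound
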