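import Fermat.Agent.R59.Interfaces
import Fermat.Agent.R59.DefRings
import Fermat.Agent.R59.CotBound.OrdinaryAt
import Fermat.Agent.R59.CotBound.Surj
import Fermat.Agent.NumCrit.LengthDet
import Mathlib.LinearAlgebra.Matrix.Charpoly.Coeff

/-!
# The growth of cotangent spaces: `StmtCotBound`

Away from `p` this is `CotGrowth.length_cotangent_le`. For ordinary problems the deformation
ring maps onto the ring of the condition "flat and ordinary" at `p` of minimal ramification,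
which is a quotient of the flat minimal ring; the kernel contributes at most
`∑ ord ((q - 1) ((q + 1)² - a_q²)) + ord (α² - 1)`.
-/

set_option autoImplicit false
set_option maxHeartbeats 400000

noncomputable section

open IsLocalRing

namespace Fermat.Agent.R59.CotBound

open FlatTangent Deform

variable {W : WeierstrassCurve ℤ} {p : ℕ} {k : Kind}

theorem sdiff_fullSet_minSet (hΔ : W.Δ ≠ 0) :
    fullSet W p \ minSet W p = raisePrimes W p := by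
  ext q
  simp only [fullSet, minSet, Finset.mem_sdiff, Finset.mem_insert, Finset.mem_union,
    mem_ramPrimes W p hΔ, mem_raisePrimes W p hΔ]
  tauto

theorem minSet_subset_fullSet : minSet W p ⊆ fullSet W p :=
  Finset.insert_subset_insert _ Finset.subset_union_left

/-- The trace of the base point at Frobenius. -/
theorem trace_base (U : Setup W p k) {ℓ : ℕ} (hℓ : ℓ.Prime) (hmem : ℓ ∉ minSet W p)
    {A : ValuationSubring (AlgebraicClosure ℚ)} (hA : A.LiesOverPrime ℓ)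
    {σ : AlgebraicClosure ℚ ≃ₐ[ℚ] AlgebraicClosure ℚ} (hσ : A.IsFrobeniusAt σ ℓ) :
    LinearMap.trace U.𝒪 U.base.V (U.base.ρ σ) = U.a ℓ := by
  have h := U.base_charpoly ℓ hℓ hmem A hA σ hσ
  let b := Module.finBasisOfFinrankEq U.𝒪 U.base.V U.base.finrank_eq
  rw [← LinearMap.charpoly_toMatrix (U.base.ρ σ) b, Matrix.charpoly_fin_two,
    ← LinearMap.trace_eq_matrix_trace] at h
  simpa [Polynomial.coeff_X] using congrArg (Polynomial.coeff · 1) h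

theorem ord_prod_ge {O : Type} [CommRing O] [IsDomain O] [IsDiscreteValuationRing O] {ι : Type*}
    (s : Finset ι) (a : ι → O) (c : O) :
    (∑ i ∈ s, Ring.ord O (a i)) + Ring.ord O c ≤ Ring.ord O ((∏ i ∈ s, a i) * c) := by
  by_cases h : (∏ i ∈ s, a i) * c = 0
  · rw [h, CotGrowth.ord_zero_eq_top]
    exact le_top
  · have hs : ∏ i ∈ s, a i ≠ 0 := left_ne_zero_of_mul h
    rw [Ring.ord_mul O (mem_nonZeroDivisors_of_ne_zero (right_ne_zero_of_mul h)),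
      NumCrit.ord_prod s fun i hi => Finset.prod_ne_zero_iff.mp hs i hi]

section Quotients

variable {𝒪 : Type} [CommRing 𝒪] [IsDomain 𝒪] [IsDiscreteValuationRing 𝒪]
  [IsAdicComplete (maximalIdeal 𝒪) 𝒪] {ρbar : ResidualGaloisRep (ResidueField 𝒪)}
  {𝒟 𝒟' : ∀ ⦃A : Type⦄ [CommRing A] [IsLocalRing A] [Algebra 𝒪 A], GaloisRepAdic A → Prop}

/-- An ideal with a quotient of the stronger type contains the kernel of `R → R'`. -/
theorem ker_le_of_quotient (D : GaloisRep.DeformationRingData 𝒪 ρbar 𝒟)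
    (D' : GaloisRep.DeformationRingData 𝒪 ρbar 𝒟')
    (hle : ∀ ⦃A : Type⦄ [CommRing A] [IsLocalRing A] [Algebra 𝒪 A] (ρ : GaloisRepAdic A),
      𝒟' ρ → 𝒟 ρ)
    (r : D.R →ₐ[𝒪] D'.R) (hr : IsLocalHom (r : D.R →+* D'.R))
    (he : (D.ρ.baseChangeAlong (r : D.R →+* D'.R) hr).IsEquiv D'.ρ)
    (J : Ideal D.R) (hJ : J ≤ maximalIdeal D.R)
    (hquot : ∀ [IsLocalRing (D.R ⧸ J)]
      (hmk : IsLocalHom ((Ideal.Quotient.mkₐ 𝒪 J : D.R →ₐ[𝒪] D.R ⧸ J) : D.R →+* D.R ⧸ J)),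
      𝒟' (D.ρ.baseChangeAlong
        ((Ideal.Quotient.mkₐ 𝒪 J : D.R →ₐ[𝒪] D.R ⧸ J) : D.R →+* D.R ⧸ J) hmk)) :
    RingHom.ker (r : D.R →+* D'.R) ≤ J := by
  have : Nontrivial (D.R ⧸ J) := Ideal.Quotient.nontrivial_iff.mpr fun h =>
    (maximalIdeal.isMaximal D.R).ne_top (top_le_iff.mp (h ▸ hJ))
  have : IsLocalRing (D.R ⧸ J) :=
    IsLocalRing.of_surjective' (Ideal.Quotient.mk J) Ideal.Quotient.mk_surjective
  have hm : IsLocalHom ((Ideal.Quotient.mkₐ 𝒪 J : D.R →ₐ[𝒪] D.R ⧸ J) : D.R →+* D.R ⧸ J) :=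
    IsLocalHom.of_surjective _ Ideal.Quotient.mk_surjective
  have : IsLocalHom (Ideal.Quotient.mk J) := hm
  have : IsLocalHom (algebraMap D.R (D.R ⧸ J)) := hm
  have : Module.Finite D.R (D.R ⧸ J) :=
    Module.Finite.of_surjective (Ideal.Quotient.mkₐ D.R J).toLinearMap Ideal.Quotient.mk_surjective
  have : IsAdicComplete (maximalIdeal (D.R ⧸ J)) (D.R ⧸ J) :=
    IsLocalRing.isAdicComplete_of_module_finite (𝒪 := D.R)
  have : IsLocalHom (algebraMap 𝒪 (D.R ⧸ J)) := by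
    rw [IsScalarTower.algebraMap_eq 𝒪 D.R (D.R ⧸ J)]
    exact RingHom.isLocalHom_comp _ _
  have hsurj : Function.Surjective (residue (D.R ⧸ J) ∘ algebraMap 𝒪 (D.R ⧸ J)) := by
    intro y
    obtain ⟨x, rfl⟩ := residue_surjective y
    obtain ⟨x, rfl⟩ := Ideal.Quotient.mk_surjective x
    obtain ⟨c, hc⟩ := D.residue_surjective (residue D.R x)
    refine ⟨c, ?_⟩
    have h := congrArg (ResidueField.map (Ideal.Quotient.mk J)) hc
    simpa [ResidueField.map_residue] using h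
  let m : D.R →ₐ[𝒪] D.R ⧸ J := Ideal.Quotient.mkₐ 𝒪 J
  have hres := TWGal.residual_baseChangeAlong_isEquiv D.ρ D.residual_isEquiv m hm
  obtain ⟨g, ⟨hg, heg⟩, -⟩ := D'.universal (D.R ⧸ J) hsurj _ (hquot hm) hres
  have hgr : IsLocalHom ((g : D'.R →+* D.R ⧸ J).comp (r : D.R →+* D'.R)) :=
    RingHom.isLocalHom_comp _ _
  have hcomp : m = g.comp r := by
    refine (D.universal (D.R ⧸ J) hsurj _ (hle _ (hquot hm)) hres).unique
      ⟨hm, ⟨GaloisRepAdic.Equiv.refl _⟩⟩ ⟨hgr, ?_⟩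
    obtain ⟨e⟩ := he
    exact Deform.isEquiv_trans' (Deform.isEquiv_symm' (TWGal.baseChangeAlong_comp D.ρ _ hr _ hg hgr))
      (Deform.isEquiv_trans' ⟨e.baseChangeAlong _ hg⟩ heg)
  intro x hx
  refine Ideal.Quotient.eq_zero_iff_mem.mp ?_
  have h := AlgHom.congr_fun hcomp x
  rw [AlgHom.comp_apply, show r x = 0 from hx, map_zero] at h
  exact h

omit [IsDomain 𝒪] [IsDiscreteValuationRing 𝒪] [IsAdicComplete (maximalIdeal 𝒪) 𝒪] in
/-- Cotangent spaces surject along surjections. -/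
theorem length_cotangent_le_of_surjective {R R₀ : Type} [CommRing R] [CommRing R₀] [Algebra 𝒪 R]
    [Algebra 𝒪 R₀] (r : R →ₐ[𝒪] R₀) (hr : Function.Surjective r) (π₀ : R₀ →ₐ[𝒪] 𝒪) :
    Module.length 𝒪 (RingHom.ker π₀).Cotangent ≤
      Module.length 𝒪 (RingHom.ker (π₀.comp r)).Cotangent := by
  refine Module.length_le_of_surjective
    ((RingHom.ker (π₀.comp r)).mapCotangent (RingHom.ker π₀) r fun x hx => hx) fun z => ?_
  obtain ⟨⟨y, hy⟩, rfl⟩ := (RingHom.ker π₀).toCotangent_surjective z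
  obtain ⟨w, rfl⟩ := hr y
  exact ⟨(RingHom.ker (π₀.comp r)).toCotangent ⟨w, hy⟩, Ideal.mapCotangent_toCotangent _ _ _ _ _⟩

end Quotients

section OrdFlat

variable {𝒪 : Type} [CommRing 𝒪] {S : Finset ℕ}

/-- Ordinary and flat at `p`, of minimal ramification. -/
def ordFlat (𝒪 : Type) [CommRing 𝒪] (p : ℕ) (S : Finset ℕ) :
    ∀ ⦃A : Type⦄ [CommRing A] [IsLocalRing A] [Algebra 𝒪 A], GaloisRepAdic A → Prop :=
  fun _A _ _ _ ρ => cond .ord 𝒪 p S S ρ ∧ cond .flat 𝒪 p S S ρ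

theorem ordFlat_baseChangeAlong [Fact p.Prime] (hp2 : p ≠ 2) {A B : Type} [CommRing A]
    [IsLocalRing A] [Algebra 𝒪 A] [CommRing B] [IsLocalRing B] [Algebra 𝒪 B] (φ : A →+* B)
    (hφ : IsLocalHom φ) (hs : Function.Surjective φ) {ρ : GaloisRepAdic A}
    (h : ordFlat 𝒪 p S ρ) : ordFlat 𝒪 p S (ρ.baseChangeAlong φ hφ) :=
  ⟨cond_baseChangeAlong hp2 φ hφ hs h.1, cond_baseChangeAlong hp2 φ hφ hs h.2⟩

end OrdFlat

variable [Fact p.Prime]

theorem length_cotangent_le_ord (hp2 : p ≠ 2) (hΔ : W.Δ ≠ 0) (U : Setup W p .ord)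
    (D₀ : GaloisRep.DeformationRingData U.𝒪 U.ρbar (cond .flat U.𝒪 p (minSet W p) (minSet W p)))
    (D₁ : GaloisRep.DeformationRingData U.𝒪 U.ρbar (cond .ord U.𝒪 p (fullSet W p) (minSet W p)))
    (π₀ : D₀.R →ₐ[U.𝒪] U.𝒪) (hπ₀ : IsLocalHom (π₀ : D₀.R →+* U.𝒪))
    (π₁ : D₁.R →ₐ[U.𝒪] U.𝒪) (hπ₁ : IsLocalHom (π₁ : D₁.R →+* U.𝒪))
    (he₀ : (D₀.ρ.baseChangeAlong (π₀ : D₀.R →+* U.𝒪) hπ₀).IsEquiv U.base)
    (he₁ : (D₁.ρ.baseChangeAlong (π₁ : D₁.R →+* U.𝒪) hπ₁).IsEquiv U.base) :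
    Module.length U.𝒪 (RingHom.ker π₁).Cotangent ≤
      Module.length U.𝒪 (RingHom.ker π₀).Cotangent +
        ((∑ q ∈ raisePrimes W p,
          Ring.ord U.𝒪 (((q : U.𝒪) - 1) * (((q : U.𝒪) + 1) ^ 2 - U.a q ^ 2))) +
          Ring.ord U.𝒪 (U.α ^ 2 - 1)) := by
  classical
  obtain hα | hα := eq_or_ne (U.α ^ 2 - 1) 0
  · rw [hα, CotGrowth.ord_zero_eq_top, add_top, add_top]
    exact le_top
  have hloc : IsLocalHom (algebraMap U.𝒪 U.𝒪) := ⟨fun _ h => h⟩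
  have hsurj : Function.Surjective (residue U.𝒪 ∘ algebraMap U.𝒪 U.𝒪) := residue_surjective
  obtain ⟨-, -, hroot⟩ := U.alpha_spec rfl
  have hbasef : cond .flat U.𝒪 p (minSet W p) (minSet W p) U.base := U.base_cond
  have hbase : ordFlat U.𝒪 p (minSet W p) U.base := by
    refine ⟨⟨⟨hbasef.1.1, fun P hP => ?_, hbasef.1.2.2⟩, hbasef.2⟩, hbasef⟩
    obtain ⟨L, h1, h2, h3, -⟩ := hroot P hP
    exact ⟨L, h1, h2, h3⟩
  have hclosed : DefCond.Closed U.𝒪 (ordFlat U.𝒪 p (minSet W p)) :=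
    (closed_cond hp2 .ord _ _).and (closed_cond hp2 .flat _ _)
  obtain ⟨Dx⟩ := S53.result U.𝒪 U.ρbar _ U.absIrr hclosed.isDeformationCondition
    (ofResidual_of_lift hclosed U.base_residual hbase)
    (DefCond.tangentFinite_of_unramified U.ρbar (minSet W p) _ fun A _ _ _ ρ h => h.2.1.2.2)
  obtain ⟨πx, ⟨hπx, hex⟩, -⟩ := Dx.universal U.𝒪 hsurj U.base hbase U.base_residual
  -- the two maps to `Dx`
  have hle₁ : ∀ ⦃A : Type⦄ [CommRing A] [IsLocalRing A] [Algebra U.𝒪 A] (ρ : GaloisRepAdic A),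
      ordFlat U.𝒪 p (minSet W p) ρ → cond .ord U.𝒪 p (fullSet W p) (minSet W p) ρ :=
    fun A _ _ _ ρ h => ((cond_iff_of_subset minSet_subset_fullSet).mp h.1).1
  obtain ⟨r, ⟨hr, her⟩, -⟩ := D₁.universal Dx.R Dx.residue_surjective Dx.ρ
    (hle₁ _ Dx.isOfType) Dx.residual_isEquiv
  obtain ⟨r₀, ⟨hr₀, her₀⟩, -⟩ := D₀.universal Dx.R Dx.residue_surjective Dx.ρ
    Dx.isOfType.2 Dx.residual_isEquiv
  have hbc := fun ⦃B : Type⦄ (_ : CommRing B) (_ : IsLocalRing B) (_ : Algebra U.𝒪 B)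
      (f : Dx.R →ₐ[U.𝒪] B) (hf : IsLocalHom (f : Dx.R →+* B)) (hs : Function.Surjective f) =>
    ordFlat_baseChangeAlong hp2 (f : Dx.R →+* B) hf hs Dx.isOfType
  have hrs := surjective_of_universal D₁ Dx r hr her fun B _ _ _ f hf hs => hbc _ _ _ f hf hs
  have hr₀s := surjective_of_universal D₀ Dx r₀ hr₀ her₀ fun B _ _ _ f hf hs => hbc _ _ _ f hf hs
  -- compatibility with the base point
  have h1 : IsLocalHom ((πx : Dx.R →+* U.𝒪).comp (r : D₁.R →+* Dx.R)) :=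
    RingHom.isLocalHom_comp _ _
  have h0 : IsLocalHom ((πx : Dx.R →+* U.𝒪).comp (r₀ : D₀.R →+* Dx.R)) :=
    RingHom.isLocalHom_comp _ _
  obtain ⟨er⟩ := her
  obtain ⟨er₀⟩ := her₀
  have hπ₁eq : π₁ = πx.comp r :=
    (D₁.universal U.𝒪 hsurj U.base (hle₁ _ hbase) U.base_residual).unique ⟨hπ₁, he₁⟩
      ⟨h1, Deform.isEquiv_trans'
        (Deform.isEquiv_symm' (TWGal.baseChangeAlong_comp D₁.ρ _ hr _ hπx h1))
        (Deform.isEquiv_trans' ⟨er.baseChangeAlong _ hπx⟩ hex)⟩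
  have hπ₀eq : π₀ = πx.comp r₀ :=
    (D₀.universal U.𝒪 hsurj U.base hbasef U.base_residual).unique ⟨hπ₀, he₀⟩
      ⟨h0, Deform.isEquiv_trans'
        (Deform.isEquiv_symm' (TWGal.baseChangeAlong_comp D₀.ρ _ hr₀ _ hπx h0))
        (Deform.isEquiv_trans' ⟨er₀.baseChangeAlong _ hπx⟩ hex)⟩
  refine le_trans ?_ (add_le_add
    (le_of_le_of_eq (length_cotangent_le_of_surjective r₀ hr₀s πx) (by rw [hπ₀eq])) le_rfl)
  refine le_of_eq_of_le (by rw [hπ₁eq])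
    ((CotGrowth.length_cotangent_comp_le r hrs πx rfl).trans (add_le_add le_rfl ?_))
  rw [← hπ₁eq]
  -- the image of the kernel
  have : Finite (ResidueField D₁.R) := Finite.of_surjective
    (ResidueField.map (algebraMap U.𝒪 D₁.R)) fun y => by
      obtain ⟨c, hc⟩ := D₁.residue_surjective y
      exact ⟨residue _ c, by rw [ResidueField.map_residue]; exact hc⟩
  obtain ⟨hdet, hord, -⟩ := D₁.isOfType.1
  obtain ⟨b, hb⟩ := exists_ordBasis (p := p) hord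
  obtain ⟨φ, hφ⟩ := FlatTangent.exists_frobenius (p := p)
  have hU : π₁ (matOf D₁.ρ b φ 1 1) = U.α :=
    quot_frob_eq (π := (π₁ : D₁.R →+* U.𝒪)) hπ₁ hp2 hb he₁ hbasef.1.1 hroot hφ
  set Q := raisePrimes W p with hQdef
  have hQ : ∀ q ∈ Q, q.Prime ∧ q ≠ p := fun q hq =>
    ⟨prime_of_mem_raisePrimes W p hq, ((mem_raisePrimes W p hΔ).mp hq).2.2.1⟩
  have hunram : ∀ q ∈ Q, q.Prime ∧ q ∉ minSet W p := fun q hq => by
    rw [hQdef, ← sdiff_fullSet_minSet hΔ] at hq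
    exact ⟨(hQ q (by rw [hQdef, ← sdiff_fullSet_minSet hΔ]; exact hq)).1, (Finset.mem_sdiff.mp hq).2⟩
  set I := CotGrowth.inertiaIdeal (matOf D₁.ρ b) Q with hIdef
  have hIker : I ≤ RingHom.ker π₁ :=
    fun x hx => (CotGrowth.inertiaIdeal_le_ker_iff D₁.ρ b Q (π₁ : D₁.R →+* U.𝒪) hπ₁).mpr
      (fun q hq => Tangent.isUnramifiedAt_of_isEquiv (Deform.isEquiv_symm' he₁)
        (hbasef.1.2.2 q (hunram q hq).1 (hunram q hq).2)) hx
  refine CotGrowth.length_image_le_of_forall _ _ fun n => ?_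
  obtain ⟨J, hJ₁, hJm, hflat, hlen⟩ := exists_flat_ideal hb hdet π₁
    (Galois.isFrobeniusAt_iff.mp hφ).1 (fun h => hα (by rw [← hU, h, sub_self])) n
  have hker : RingHom.ker (r : D₁.R →+* Dx.R) ≤ I ⊔ J := by
    have hIJ : I ⊔ J ≤ maximalIdeal D₁.R :=
      sup_le (hIker.trans (le_maximalIdeal (RingHom.ker_ne_top _))) hJm
    refine ker_le_of_quotient D₁ Dx hle₁ r hr ⟨er⟩ (I ⊔ J) hIJ ?_
    intro _ hmk
    have : Nontrivial (D₁.R ⧸ J) := Ideal.Quotient.nontrivial_iff.mpr fun h =>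
      (maximalIdeal.isMaximal D₁.R).ne_top (top_le_iff.mp (h ▸ hJm))
    have : IsLocalRing (D₁.R ⧸ J) :=
      IsLocalRing.of_surjective' (Ideal.Quotient.mk J) Ideal.Quotient.mk_surjective
    have hmkJ : IsLocalHom (Ideal.Quotient.mk J) :=
      IsLocalHom.of_surjective _ Ideal.Quotient.mk_surjective
    have hur : ∀ q ∈ fullSet W p \ minSet W p, q.Prime →
        (D₁.ρ.baseChangeAlong ((Ideal.Quotient.mkₐ U.𝒪 (I ⊔ J) : D₁.R →ₐ[U.𝒪] _) :
          D₁.R →+* D₁.R ⧸ I ⊔ J) hmk).IsUnramifiedAt q := fun q hq _ =>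
      (CotGrowth.inertiaIdeal_le_ker_iff D₁.ρ b Q _ hmk).mp
        (fun x hx => Ideal.Quotient.eq_zero_iff_mem.mpr (Ideal.mem_sup_left hx)) q
        (by rw [hQdef, ← sdiff_fullSet_minSet hΔ]; exact hq)
    have hordmin := (cond_iff_of_subset (k := .ord) (Smin := minSet W p) minSet_subset_fullSet).mpr
      ⟨cond_baseChangeAlong hp2 _ hmk Ideal.Quotient.mk_surjective D₁.isOfType, hur⟩
    refine ⟨hordmin, ⟨hordmin.1.1, ?_, hordmin.1.2.2⟩, hordmin.2⟩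
    have hf : IsLocalHom (Ideal.Quotient.factor (le_sup_right : J ≤ I ⊔ J)) :=
      IsLocalHom.of_surjective _ (Ideal.Quotient.factor_surjective _)
    have hc : IsLocalHom ((Ideal.Quotient.factor (le_sup_right : J ≤ I ⊔ J)).comp
        (Ideal.Quotient.mk J)) := RingHom.isLocalHom_comp _ _
    exact Tangent.isFlatAt_of_isEquiv (TWGal.baseChangeAlong_comp D₁.ρ _ hmkJ _ hf hc)
      (Tangent.isFlatAt_baseChangeAlong _ hf (Ideal.Quotient.factor_surjective _) (hflat hmkJ))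
  set 𝔮 := RingHom.ker π₁ ^ 2 ⊔ maximalIdeal D₁.R ^ (n + 1)
  set mk := (Ideal.Quotient.mkₐ U.𝒪 𝔮).toLinearMap
  have hmap : ((RingHom.ker (r : D₁.R →+* Dx.R)).restrictScalars U.𝒪).map mk ≤
      (I.restrictScalars U.𝒪).map mk ⊔ (J.restrictScalars U.𝒪).map mk := by
    rw [← Submodule.map_sup]
    refine Submodule.map_mono fun x hx => ?_
    obtain ⟨y, hy, z, hz, rfl⟩ := Submodule.mem_sup.mp (hker hx)
    exact Submodule.add_mem_sup hy hz
  refine (Module.length_le_of_injective (Submodule.inclusion hmap)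
    (Submodule.inclusion_injective hmap)).trans ?_
  refine (CotGrowth.length_sup_le _ _).trans (add_le_add ?_ (hU ▸ hlen))
  -- the inertia part is an image of its image modulo `℘ ^ 2`
  let f : D₁.R ⧸ RingHom.ker π₁ ^ 2 →ₗ[U.𝒪] D₁.R ⧸ 𝔮 :=
    (Ideal.Quotient.factorₐ U.𝒪 (le_sup_left : RingHom.ker π₁ ^ 2 ≤ 𝔮)).toLinearMap
  have hcomp : mk = f.comp (Ideal.Quotient.mkₐ U.𝒪 (RingHom.ker π₁ ^ 2)).toLinearMap := rfl
  rw [hcomp, Submodule.map_comp]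
  refine (Module.length_le_of_surjective (f.submoduleMap _) (f.submoduleMap_surjective _)).trans ?_
  refine CotGrowth.length_inertia_image_le Fact.out D₁.ρ hdet b hQ π₁ hIker U.a fun q hq => ?_
  obtain ⟨P, φq, hP, hφq⟩ := Galois.exists_place_isFrobeniusAt (hQ q hq).1
  refine ⟨P, hP, φq, hφq, ?_⟩
  rw [← trace_base U (hunram q hq).1 (hunram q hq).2 hP hφq, ← trace_eq_of_isEquiv he₁ φq]
  exact (trace_baseChangeAlong (π₁ : D₁.R →+* U.𝒪) hπ₁ D₁.ρ φq).symm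

theorem length_cotangent_le_other (hp2 : p ≠ 2) (hΔ : W.Δ ≠ 0) (U : Setup W p k) (k' : Kind)
    (D₀ : GaloisRep.DeformationRingData U.𝒪 U.ρbar (cond k' U.𝒪 p (minSet W p) (minSet W p)))
    (D₁ : GaloisRep.DeformationRingData U.𝒪 U.ρbar (cond k' U.𝒪 p (fullSet W p) (minSet W p)))
    (hbase : cond k' U.𝒪 p (minSet W p) (minSet W p) U.base)
    (π₀ : D₀.R →ₐ[U.𝒪] U.𝒪) (hπ₀ : IsLocalHom (π₀ : D₀.R →+* U.𝒪))
    (π₁ : D₁.R →ₐ[U.𝒪] U.𝒪) (hπ₁ : IsLocalHom (π₁ : D₁.R →+* U.𝒪))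
    (he₀ : (D₀.ρ.baseChangeAlong (π₀ : D₀.R →+* U.𝒪) hπ₀).IsEquiv U.base)
    (he₁ : (D₁.ρ.baseChangeAlong (π₁ : D₁.R →+* U.𝒪) hπ₁).IsEquiv U.base) :
    Module.length U.𝒪 (RingHom.ker π₁).Cotangent ≤
      Module.length U.𝒪 (RingHom.ker π₀).Cotangent +
        ∑ q ∈ raisePrimes W p,
          Ring.ord U.𝒪 (((q : U.𝒪) - 1) * (((q : U.𝒪) + 1) ^ 2 - U.a q ^ 2)) := by
  have hloc : IsLocalHom (algebraMap U.𝒪 U.𝒪) := ⟨fun _ h => h⟩
  have hle := fun {A : Type} [CommRing A] [IsLocalRing A] [Algebra U.𝒪 A] {ρ : GaloisRepAdic A}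
      (h : cond k' U.𝒪 p (minSet W p) (minSet W p) ρ) =>
    ((cond_iff_of_subset (S := fullSet W p) minSet_subset_fullSet).mp h).1
  obtain ⟨r, ⟨hr, her⟩, -⟩ := D₁.universal D₀.R D₀.residue_surjective D₀.ρ
    (hle D₀.isOfType) D₀.residual_isEquiv
  have h1 : IsLocalHom ((π₀ : D₀.R →+* U.𝒪).comp (r : D₁.R →+* D₀.R)) :=
    RingHom.isLocalHom_comp _ _
  obtain ⟨er⟩ := her
  have heq : π₁ = π₀.comp r :=
    (D₁.universal U.𝒪 residue_surjective U.base (hle hbase) U.base_residual).unique ⟨hπ₁, he₁⟩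
      ⟨h1, Deform.isEquiv_trans'
        (Deform.isEquiv_symm' (TWGal.baseChangeAlong_comp D₁.ρ _ hr _ hπ₀ h1))
        (Deform.isEquiv_trans' ⟨er.baseChangeAlong _ hπ₀⟩ he₀)⟩
  rw [heq, ← sdiff_fullSet_minSet hΔ]
  refine (CotGrowth.length_cotangent_le hp2 D₁ D₀ minSet_subset_fullSet (fun q hq => ?_) r hr ⟨er⟩
    π₀ U.a fun q hq => ?_).2
  · rw [sdiff_fullSet_minSet hΔ] at hq
    exact ⟨prime_of_mem_raisePrimes W p hq, ((mem_raisePrimes W p hΔ).mp hq).2.2.1⟩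
  · have hqp : q.Prime := by
      rw [sdiff_fullSet_minSet hΔ] at hq
      exact prime_of_mem_raisePrimes W p hq
    obtain ⟨P, φq, hP, hφq⟩ := Galois.exists_place_isFrobeniusAt hqp
    refine ⟨P, hP, φq, hφq, ?_⟩
    rw [← trace_base U hqp (Finset.mem_sdiff.mp hq).2 hP hφq, ← trace_eq_of_isEquiv he₁ φq]
    exact (AlgHom.congr_fun heq _).symm.trans
      (trace_baseChangeAlong (π₁ : D₁.R →+* U.𝒪) hπ₁ D₁.ρ φq).symm

end Fermat.Agent.R59.CotBound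

namespace Fermat.Agent.R59

open CotBound

/-- **Cotangent spaces grow by at most `ord` of the raise factor.** -/
theorem stmtCotBound : StmtCotBound := by
  intro W p k h U D₀ D₁ π₀ hπ₀ π₁ hπ₁ he₀ he₁
  have hp : p.Prime := by rcases h.1 with rfl | rfl <;> decide
  have : Fact p.Prime := ⟨hp⟩
  have hp2 : p ≠ 2 := by rcases h.1 with rfl | rfl <;> decide
  have hsum : ∀ q : ℕ, Ring.ord U.𝒪 (((q : U.𝒪) - 1) * (((q : U.𝒪) + 1) ^ 2 - U.a q ^ 2)) =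
      Ring.ord U.𝒪 (((q : U.𝒪) - 1) * (U.a q ^ 2 - ((q : U.𝒪) + 1) ^ 2)) := fun q => by
    unfold Ring.ord
    rw [← Ideal.span_singleton_neg, ← mul_neg, neg_sub]
  have hR : (∑ q ∈ raisePrimes W p,
      Ring.ord U.𝒪 (((q : U.𝒪) - 1) * (((q : U.𝒪) + 1) ^ 2 - U.a q ^ 2))) +
      Ring.ord U.𝒪 (if k = .ord then U.α ^ 2 - 1 else 1) ≤ Ring.ord U.𝒪 U.raiseFactor := by
    rw [Finset.sum_congr rfl fun q _ => hsum q]
    exact ord_prod_ge _ _ _
  refine le_trans ?_ (add_le_add le_rfl hR)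
  cases k with
  | flat =>
    refine le_trans ?_ (add_le_add le_rfl le_self_add)
    exact length_cotangent_le_other hp2 h.2.1 U .flat D₀ D₁ U.base_cond π₀ hπ₀ π₁ hπ₁ he₀ he₁
  | strict =>
    refine le_trans ?_ (add_le_add le_rfl le_self_add)
    exact length_cotangent_le_other hp2 h.2.1 U .strict D₀ D₁ U.base_cond π₀ hπ₀ π₁ hπ₁ he₀ he₁
  | ord =>
    rw [if_pos rfl]
    exact length_cotangent_le_ord hp2 h.2.1 U D₀ D₁ π₀ hπ₀ π₁ hπ₁ he₀ he₁

end Fermat.Agent.R59
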