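import Fermat.Agent.FlatTangent.Unram
import Fermat.Agent.FlatTangent.Cyclo
import Mathlib.GroupTheory.FiniteAbelian.Duality

/-!
# The valuation obstruction of a cocycle of inertia at `p`

For a finite `p ^ N`-torsion ring `A`, a cocycle `c` of inertia in `A` twisted by the cyclotomic
character gives, for each character `lam` of `A`, a Kummer element `x`; the exponent of the valuation
of `x ^ p ^ N` modulo `p ^ N` is `lam w` for a single `w : A`, the obstruction to peu ramifiée.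
If Frobenius multiplies `c` by `d * V` up to a coboundary, then `V * w = w`.
-/

set_option autoImplicit false
set_option linter.unusedSectionVars false

noncomputable section

open Multiplicative

namespace Fermat.Agent.R59.CotBound

open FlatTangent

local instance isAlgebraicQbar : Algebra.IsAlgebraic ℚ Qb := AlgebraicClosure.isAlgebraic ℚ
local instance isAlgClosureQbar : IsAlgClosure ℚ Qb := ⟨inferInstance, inferInstance⟩
local instance normalQbar : Normal ℚ Qb := IsAlgClosure.normal ℚ Qb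

section Hilbert90

/-- Hilbert 90 for a level constant cocycle on a subgroup of the Galois group. -/
theorem exists_of_cocycle (H : Subgroup Gal) (e : Gal → Qb) (he : ∀ σ ∈ H, e σ ≠ 0)
    (hmul : ∀ σ ∈ H, ∀ τ ∈ H, e (σ * τ) = e σ * σ (e τ))
    (F : IntermediateField ℚ Qb) [FiniteDimensional ℚ F]
    (hlev : ∀ σ ∈ H, σ ∈ F.fixingSubgroup → e σ = 1) :
    ∃ x : Qb, x ≠ 0 ∧ ∀ σ ∈ H, σ x = e σ * x := by
  classical
  let M : IntermediateField ℚ Qb := IntermediateField.normalClosure ℚ F Qb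
  have : FiniteDimensional ℚ M := normalClosure.is_finiteDimensional ℚ F Qb
  have : Normal ℚ M := normalClosure.normal ℚ F Qb
  have hle : M.fixingSubgroup ≤ F.fixingSubgroup :=
    IntermediateField.fixingSubgroup_antitone F.le_normalClosure
  let R := (AlgEquiv.restrictNormalHom (F := ℚ) (K₁ := Qb) M)
  let G := H.map R
  have : Finite G := Finite.of_injective Subtype.val Subtype.val_injective
  let _ := Fintype.ofFinite G
  have hex : ∀ g : G, ∃ σ, σ ∈ H ∧ R σ = g.1 := fun g => Subgroup.mem_map.mp g.2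
  choose sec hsec1 hsec2 using hex
  have hres : ∀ (σ : Gal) (x : M), σ (x : Qb) = ((R σ x : M) : Qb) := fun σ x =>
    (AlgEquiv.restrictNormal_commutes σ M x).symm
  have hwd : ∀ σ ∈ H, ∀ τ ∈ H, R σ = R τ → e σ = e τ := by
    intro σ hσ τ hτ heq
    have hfx : σ⁻¹ * τ ∈ M.fixingSubgroup := by
      rw [← IntermediateField.restrictNormalHom_ker, MonoidHom.mem_ker, map_mul, map_inv]
      show (R σ)⁻¹ * R τ = 1
      rw [heq, inv_mul_cancel]
    have h := hmul σ hσ (σ⁻¹ * τ) (mul_mem (inv_mem hσ) hτ)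
    rw [mul_inv_cancel_left, hlev _ (mul_mem (inv_mem hσ) hτ) (hle hfx), map_one, mul_one] at h
    exact h.symm
  let emb : G → (M →* Qb) := fun g =>
    ((M.val.comp (g.1 : M →ₐ[ℚ] M)) : M →ₐ[ℚ] Qb).toMonoidHom
  have hembinj : Function.Injective emb := by
    intro g g' h
    refine Subtype.ext (AlgEquiv.ext fun x => Subtype.ext ?_)
    exact DFunLike.congr_fun h x
  have hli := (linearIndependent_monoidHom M Qb).comp emb hembinj
  obtain ⟨θ, hθ⟩ : ∃ θ : M, ∑ g : G, (e (sec g))⁻¹ * emb g θ ≠ 0 := by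
    by_contra! h
    have h1 := Fintype.linearIndependent_iff.mp hli (fun g => (e (sec g))⁻¹)
      (funext fun x => by simpa [Finset.sum_apply] using h x)
    exact inv_ne_zero (he _ (hsec1 _)) (h1 ⟨1, one_mem _⟩)
  refine ⟨_, hθ, fun τ hτ => ?_⟩
  let gτ : G := ⟨R τ, Subgroup.mem_map.mpr ⟨τ, hτ, rfl⟩⟩
  rw [map_sum, Finset.mul_sum]
  refine Finset.sum_bij (fun g _ => gτ * g) (fun _ _ => Finset.mem_univ _)
    (fun _ _ _ _ h => mul_left_cancel h)
    (fun g _ => ⟨gτ⁻¹ * g, Finset.mem_univ _, mul_inv_cancel_left _ _⟩) ?_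
  intro g _
  have h1 : e (sec (gτ * g)) = e τ * τ (e (sec g)) := by
    rw [← hmul τ hτ _ (hsec1 g)]
    refine hwd _ (hsec1 _) _ (mul_mem hτ (hsec1 g)) ?_
    rw [hsec2, map_mul]
    show R τ * g.1 = R τ * R (sec g)
    rw [hsec2]
  rw [map_mul, map_inv₀, h1, mul_inv, ← mul_assoc, ← mul_assoc, mul_inv_cancel₀ (he τ hτ),
    one_mul]
  congr 1
  show τ (((g.1 θ : M) : Qb)) = ((R τ (g.1 θ) : M) : Qb)
  exact hres τ _

end Hilbert90

variable (p : ℕ) [Fact p.Prime] {A : Type} [CommRing A]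

/-- Characters of the additive group of `A`. -/
abbrev Chr (A : Type) [CommRing A] : Type := Multiplicative A →* Qbˣ

/-- The value of a character. -/
abbrev chv (lam : Chr A) (a : A) : Qb := ((lam (ofAdd a) : Qbˣ) : Qb)

/-- `x` is a Kummer element of `lam ∘ c` on inertia. -/
def IsKummer (c : Gal → A) (lam : Chr A) (x : Qb) : Prop :=
  x ≠ 0 ∧ ∀ σ ∈ inert p, σ x = chv lam (c σ) * x

/-- The hypotheses on a twisted cocycle: `d` is cyclotomic on `p ^ N`-th roots of unity and `c` is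
a cocycle of finite level on inertia. -/
structure IsTwCocycle (N : ℕ) (d c : Gal → A) : Prop where
  pow_eq_zero : (p : A) ^ N = 0
  cyc : ∀ (σ : Gal) (lam : Chr A) (a : A), σ (chv lam a) = chv lam (d σ * a)
  mul : ∀ σ ∈ inert p, ∀ τ ∈ inert p, c (σ * τ) = d σ * c τ + c σ
  level : ∃ F : IntermediateField ℚ Qb, FiniteDimensional ℚ F ∧
    ∀ σ ∈ inert p, σ ∈ F.fixingSubgroup → c σ = 0

/-- `w` measures the valuations of the Kummer elements of `c`, modulo `p ^ N`. -/
def IsObstruction (N : ℕ) (c : Gal → A) (w : A) : Prop :=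
  ∀ (lam : Chr A) (x : Qb) (m : ℤ), IsKummer p c lam x → VEQ p m (x ^ p ^ N) →
    chv lam w = 1 → ((p ^ N : ℕ) : ℤ) ∣ m

variable {p} {N : ℕ} {d c : Gal → A} {lam : Chr A} {x : Qb}

theorem chv_add (lam : Chr A) (a b : A) : chv lam (a + b) = chv lam a * chv lam b := by
  simp [chv, ofAdd_add]

theorem chv_zero (lam : Chr A) : chv lam 0 = 1 := by simp [chv]

theorem chv_ne_zero (lam : Chr A) (a : A) : chv lam a ≠ 0 := Units.ne_zero _

theorem chv_sub (lam : Chr A) (a b : A) : chv lam (a - b) = chv lam a / chv lam b := by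
  rw [eq_div_iff (chv_ne_zero _ _), ← chv_add, sub_add_cancel]

theorem chv_pow (hN : (p : A) ^ N = 0) (lam : Chr A) (a : A) : chv lam a ^ p ^ N = 1 := by
  rw [chv, ← Units.val_pow_eq_pow_val, ← map_pow, ← ofAdd_nsmul, nsmul_eq_mul, Nat.cast_pow, hN,
    zero_mul]
  simp

theorem IsTwCocycle.exists_kummer (h : IsTwCocycle p N d c) (lam : Chr A) :
    ∃ x, IsKummer p c lam x := by
  obtain ⟨F, hF, hlev⟩ := h.level
  obtain ⟨x, hx, hact⟩ := exists_of_cocycle (inert p) (fun σ => chv lam (c σ))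
    (fun σ _ => chv_ne_zero _ _)
    (fun σ hσ τ hτ => by rw [h.mul σ hσ τ hτ, h.cyc, add_comm, chv_add]) F
    (fun σ hσ hσF => by rw [hlev σ hσ hσF, chv_zero])
  exact ⟨x, hx, hact⟩

theorem IsKummer.inU_pow (hN : (p : A) ^ N = 0) (h : IsKummer p c lam x) :
    InU p (x ^ p ^ N) := fun σ hσ => by
  rw [map_pow, h.2 σ hσ, mul_pow, chv_pow hN, one_mul]

theorem IsKummer.exists_veq_pow (hN : (p : A) ^ N = 0) (h : IsKummer p c lam x) :
    ∃ m : ℤ, VEQ p m (x ^ p ^ N) :=
  (h.inU_pow hN).exists_int (pow_ne_zero _ h.1)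

/-- Two Kummer elements have the same valuation modulo `p ^ N`. -/
theorem IsKummer.dvd_sub {y : Qb} (hx : IsKummer p c lam x) (hy : IsKummer p c lam y) {m m' : ℤ}
    (hm : VEQ p m (x ^ p ^ N)) (hm' : VEQ p m' (y ^ p ^ N)) : ((p ^ N : ℕ) : ℤ) ∣ m - m' := by
  have hU : InU p (x / y) := fun σ hσ => by
    rw [map_div₀, hx.2 σ hσ, hy.2 σ hσ, mul_div_mul_left _ _ (chv_ne_zero _ _)]
  obtain ⟨j, hj⟩ := hU.exists_int (div_ne_zero hx.1 hy.1)
  have h1 := hj.pow (p ^ N)
  rw [div_pow] at h1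
  have h2 := h1.unique (hm.div hm')
  exact ⟨j, by exact_mod_cast h2.symm⟩

theorem IsKummer.mul {μ : Chr A} {y : Qb} (hx : IsKummer p c lam x) (hy : IsKummer p c μ y) :
    IsKummer p c (lam * μ) (x * y) := ⟨mul_ne_zero hx.1 hy.1, fun σ hσ => by
  rw [map_mul, hx.2 σ hσ, hy.2 σ hσ]
  simp only [chv, MonoidHom.mul_apply, Units.val_mul]
  ring⟩

theorem IsKummer.one : IsKummer p c 1 1 := ⟨one_ne_zero, fun σ _ => by simp [chv]⟩

/-- A Kummer element that is a unit, when the valuation is divisible by `p ^ N`. -/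
theorem IsKummer.exists_unit (h : IsKummer p c lam x) {m : ℤ} (hm : VEQ p m (x ^ p ^ N))
    (hdvd : ((p ^ N : ℕ) : ℤ) ∣ m) : ∃ y, IsKummer p c lam y ∧ VEQ p 0 y := by
  obtain ⟨j, rfl⟩ := hdvd
  have hx : VEQ p j x := VEQ.of_pow (pow_ne_zero N (Fact.out : p.Prime).ne_zero)
    (by simpa using hm)
  refine ⟨x / (p : Qb) ^ j, ⟨div_ne_zero h.1 (zpow_ne_zero _ veq_cast_self.ne_zero),
    fun σ hσ => ?_⟩, ?_⟩
  · rw [map_div₀, map_zpow₀, map_natCast, h.2 σ hσ, mul_div_assoc]
  · simpa using hx.div ((veq_cast_self (p := p)).zpow j)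

/-- The obstruction passes to quotients. -/
theorem IsObstruction.map {w : A} (h : IsObstruction p N c w) {B : Type} [CommRing B]
    (f : A →+* B) : IsObstruction p N (f ∘ c) (f w) := by
  intro lam x m hx hm hw
  exact h (lam.comp f.toAddMonoidHom.toMultiplicative) x m hx hm hw

theorem IsTwCocycle.exists_unit_kummer {w : A} (h : IsTwCocycle p N d c)
    (hw : IsObstruction p N c w) (lam : Chr A) (hl : chv lam w = 1) :
    ∃ y, IsKummer p c lam y ∧ VEQ p 0 y := by
  obtain ⟨x, hx⟩ := h.exists_kummer lam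
  obtain ⟨m, hm⟩ := hx.exists_veq_pow h.pow_eq_zero
  exact hx.exists_unit hm (hw lam x m hx hm hl)

/-- **The obstruction exists, and `V * w = w` if Frobenius multiplies `c` by `d * V`.** -/
theorem IsTwCocycle.exists_obstruction [Finite A] (h : IsTwCocycle p N d c) :
    ∃ w : A, IsObstruction p N c w ∧
      ∀ φ ∈ dec p, ∀ V b : A, d φ⁻¹ * d φ = 1 →
        (∀ σ ∈ inert p, d (φ * σ * φ⁻¹) = d σ ∧
          c (φ * σ * φ⁻¹) = d φ * V * c σ + (1 - d σ) * b) → V * w = w := by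
  have hp := (Fact.out : p.Prime)
  have : NeZero (p ^ N) := ⟨pow_ne_zero N hp.ne_zero⟩
  obtain ⟨ζ, hζ⟩ := HasEnoughRootsOfUnity.exists_primitiveRoot Qb (p ^ N)
  let ζu : Qbˣ := Units.mk0 ζ (hζ.ne_zero (NeZero.ne _))
  have hζu : ∀ j : ℤ, ζu ^ j = 1 ↔ ((p ^ N : ℕ) : ℤ) ∣ j := fun j => by
    rw [← hζ.zpow_eq_one_iff_dvd, Units.ext_iff, Units.val_zpow_eq_zpow_val, Units.val_one]
    rfl
  have hζeq : ∀ i j : ℤ, ((p ^ N : ℕ) : ℤ) ∣ i - j → ζu ^ i = ζu ^ j := fun i j hij => by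
    rw [← mul_inv_eq_one, ← zpow_neg, ← zpow_add, ← sub_eq_add_neg]
    exact (hζu _).mpr hij
  choose X hX using h.exists_kummer
  choose m hm using fun lam => (hX lam).exists_veq_pow h.pow_eq_zero
  let η : Chr A →* Qbˣ :=
    { toFun := fun lam => ζu ^ m lam
      map_one' := (hζu _).mpr (by
        simpa using IsKummer.dvd_sub (hX 1) IsKummer.one (hm 1) (m' := 0) (by simpa using veq_one))
      map_mul' := fun lam μ => by
        rw [← zpow_add]
        refine hζeq _ _ (IsKummer.dvd_sub (hX (lam * μ)) ((hX lam).mul (hX μ)) (hm (lam * μ)) ?_)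
        rw [mul_pow]
        push_cast
        exact (hm lam).mul (hm μ) }
  have hexp : Monoid.exponent (Multiplicative A) ∣ p ^ N :=
    Monoid.exponent_dvd_of_forall_pow_eq_one fun g => by
      rw [← ofAdd_toAdd g, ← ofAdd_nsmul, nsmul_eq_mul, Nat.cast_pow, h.pow_eq_zero, zero_mul,
        ofAdd_zero]
  have : HasEnoughRootsOfUnity Qb (Monoid.exponent (Multiplicative A)) :=
    HasEnoughRootsOfUnity.of_dvd Qb hexp
  let w : A := toAdd (CommGroup.monoidHomMonoidHomEquiv (Multiplicative A) Qb η)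
  have hwη : ∀ lam : Chr A, lam (ofAdd w) = ζu ^ m lam := fun lam => by
    simp [w, η]
  refine ⟨w, fun lam x m' hx hm' hw => ?_, fun φ hφ V b hinv hrel => ?_⟩
  · have h1 : ((p ^ N : ℕ) : ℤ) ∣ m lam := (hζu _).mp (by
      rw [← hwη]; exact Units.ext hw)
    simpa using dvd_add (hx.dvd_sub (hX lam) hm' (hm lam)) h1
  · refine ofAdd.injective ((CommGroup.forall_apply_eq_apply_iff (M := Qb) _).mp fun lam => ?_)
    let lamV : Chr A := lam.comp (AddMonoidHom.mulLeft V).toMultiplicative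
    have hlamV : ∀ a, chv lamV a = chv lam (V * a) := fun a => rfl
    rw [hwη lam, show lam (ofAdd (V * w)) = lamV (ofAdd w) from rfl, hwη lamV]
    set z := chv lam (d φ⁻¹ * b) with hz
    have hφi : φ⁻¹ ∈ dec p := inv_mem hφ
    have hy : IsKummer p c lamV (φ⁻¹ (X lam) * z) := by
      refine ⟨mul_ne_zero (by simpa using (hX lam).1) (chv_ne_zero _ _), fun σ hσ => ?_⟩
      obtain ⟨hdσ, hcσ⟩ := hrel σ hσ
      have hσ' : φ * σ * φ⁻¹ ∈ inert p := Galois.inertia_normal_in_decomposition hσ hφ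
      have h1 : σ (φ⁻¹ (X lam)) = φ⁻¹ ((φ * σ * φ⁻¹) (X lam)) := by
        rw [← AlgEquiv.mul_apply, ← AlgEquiv.mul_apply]
        congr 1
        group
      rw [map_mul, h1, (hX lam).2 _ hσ', map_mul, hlamV, hcσ, h.cyc, hz, h.cyc]
      rw [show d φ⁻¹ * (d φ * V * c σ + (1 - d σ) * b) =
          (d φ⁻¹ * d φ) * (V * c σ) + (d φ⁻¹ * b - d σ * (d φ⁻¹ * b)) by ring, hinv, one_mul,
        chv_add, chv_sub]
      have := chv_ne_zero lam (d σ * (d φ⁻¹ * b))
      field_simp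
    refine hζeq _ _ (IsKummer.dvd_sub (hX lamV) hy (hm lamV) ?_)
    rw [mul_pow, ← map_pow, hz, chv_pow h.pow_eq_zero, mul_one]
    exact (hm lam).dec hφi

end Fermat.Agent.R59.CotBound
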